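import Fermat.Agent.S51.Gal.Card
import Fermat.Agent.S51.Gal.Line
import Fermat.Prelude.Def_FLTPrelim_ModularRep

set_option autoImplicit false

open WeierstrassCurve WeierstrassCurve.Affine WeierstrassCurve.Affine.Point

namespace Fermat.Agent.S51.Gal

local notation "Qb" => AlgebraicClosure ℚ
local notation "Γ" => (AlgebraicClosure ℚ ≃ₐ[ℚ] AlgebraicClosure ℚ)

theorem isGalois_Qb (inst : Algebra ℚ (AlgebraicClosure ℚ)) :
    @IsGalois ℚ _ (AlgebraicClosure ℚ) _ inst := by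
  have h : inst = AlgebraicClosure.instAlgebra ℚ := Subsingleton.elim _ _
  rw [h]
  infer_instance

variable {E : Affine ℚ}

lemma hasX_smul {P : (E⁄Qb).Point} {x : Qb} (σ : Γ) (h : HasX P x) : HasX (σ • P) (σ x) := by
  obtain ⟨y, hy, rfl⟩ := h
  exact ⟨σ y, _, Point.map_some σ.toAlgHom hy⟩

lemma mem_range_of_fixed {x : Qb} (h : ∀ σ : Γ, σ x = x) : ∃ r : ℚ, algebraMap ℚ Qb r = x :=
  have := isGalois_Qb inferInstance
  (InfiniteGalois.mem_range_algebraMap_iff_fixed x).mpr h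

/-- a reducible mod-`3` representation gives a rational root of `ψ₃`. -/
theorem red3_aux [E.IsElliptic]
    (h : ¬ GaloisRepIsIrreducible (K := AlgebraicClosure ℚ) ℚ E 3) :
    ∃ r : ℚ, 3 * r ^ 4 + E.b₂ * r ^ 3 + 3 * E.b₄ * r ^ 2 + 3 * E.b₆ * r + E.b₈ = 0 := by
  have : Fact (Nat.Prime 3) := ⟨by norm_num⟩
  have : (E⁄Qb).IsElliptic := inferInstanceAs ((E.map (algebraMap ℚ Qb)).IsElliptic)
  unfold GaloisRepIsIrreducible at h
  push Not at h
  obtain ⟨N, hst, h0, h1⟩ := h (nontrivial_torsion_three (E⁄Qb))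
  obtain ⟨hfin, hcard⟩ := card_torsion_three (E⁄Qb)
  obtain ⟨P, hPN, hP0, hgen⟩ := exists_generator (p := 3) (lt_of_le_of_lt hcard (by norm_num)) N h0 h1
  have hP0' : (P : (E⁄Qb).Point) ≠ 0 := fun h => hP0 (Subtype.ext h)
  obtain ⟨x, hx⟩ := exists_hasX hP0'
  have h3 : 3 • (P : (E⁄Qb).Point) = 0 := (mem_torsionBy_natCast_iff _).mp P.2
  have hfix : ∀ σ : Γ, σ x = x := by
    intro σ
    obtain ⟨n, hn⟩ := hgen (σ • P) (hst σ P hPN)
    have hn' : σ • (P : (E⁄Qb).Point) = n • (P : (E⁄Qb).Point) := congrArg Subtype.val hn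
    have hσ := hasX_smul σ hx
    rw [hn'] at hσ
    have hmod : n • (P : (E⁄Qb).Point) = (n % 3) • (P : (E⁄Qb).Point) := by
      conv_lhs => rw [← Nat.div_add_mod n 3, add_nsmul, mul_nsmul, h3, smul_zero, zero_add]
    rw [hmod] at hσ
    have hlt : n % 3 < 3 := Nat.mod_lt _ (by norm_num)
    interval_cases hk : n % 3
    · exact absurd (zero_nsmul _) hσ.ne_zero
    · rw [one_nsmul] at hσ
      exact hσ.unique hx
    · have : 2 • (P : (E⁄Qb).Point) = - (P : (E⁄Qb).Point) := by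
        have h' : (3 : ℕ) • (P : (E⁄Qb).Point) = 2 • (P : (E⁄Qb).Point) + P := by
          rw [succ_nsmul]
        rw [h'] at h3
        exact eq_neg_of_add_eq_zero_left h3
      rw [this] at hσ
      exact hσ.unique hx.neg
  obtain ⟨r, hr⟩ := mem_range_of_fixed hfix
  refine ⟨r, ?_⟩
  have hpsi := psi3_eq_zero_of_three_nsmul hx h3
  rw [← hr] at hpsi
  simp only [psi3, WeierstrassCurve.baseChange, map_b₂, map_b₄, map_b₆, map_b₈] at hpsi
  apply (algebraMap ℚ Qb).injective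
  rw [_root_.map_zero, ← hpsi]
  simp only [map_add, map_mul, map_pow, map_ofNat]

/-- a reducible mod-`5` representation gives a rational kernel polynomial `x² - s x + m`. -/
theorem red5_aux [E.IsElliptic]
    (h : ¬ GaloisRepIsIrreducible (K := AlgebraicClosure ℚ) ℚ E 5) :
    ∃ s m : ℚ, s ^ 2 - 4 * m ≠ 0 ∧
      E.b₂ * m + E.b₄ * s + E.b₆ = s ^ 3 - 6 * m * s ∧
      E.b₂ * m * s + E.b₄ * (s ^ 2 + 2 * m) + 3 * E.b₆ * s + 2 * E.b₈
        = s ^ 4 - 8 * s ^ 2 * m + 10 * m ^ 2 ∧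
      ∀ r : ℚ, 3 * r ^ 4 + E.b₂ * r ^ 3 + 3 * E.b₄ * r ^ 2 + 3 * E.b₆ * r + E.b₈ = 0 →
        r ^ 2 - s * r + m ≠ 0 := by
  have : Fact (Nat.Prime 5) := ⟨by norm_num⟩
  have : (E⁄Qb).IsElliptic := inferInstanceAs ((E.map (algebraMap ℚ Qb)).IsElliptic)
  unfold GaloisRepIsIrreducible at h
  push Not at h
  obtain ⟨N, hst, h0, h1⟩ := h (nontrivial_torsion_five (E⁄Qb))
  obtain ⟨hfin, hcard⟩ := card_torsion_five (E⁄Qb)
  obtain ⟨P, hPN, hP0, hgen⟩ := exists_generator (p := 5) (lt_of_le_of_lt hcard (by norm_num)) N h0 h1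
  set Pp : (E⁄Qb).Point := (P : (E⁄Qb).Point) with hPp
  have hP0' : Pp ≠ 0 := fun h => hP0 (Subtype.ext h)
  obtain ⟨x₁, hx1⟩ := exists_hasX hP0'
  have h5 : 5 • Pp = 0 := (mem_torsionBy_natCast_iff _).mp P.2
  obtain ⟨x₂, hx2, hne, hD1, hD2, e1, e2⟩ := five_torsion_data hx1 h5
  set Q : (E⁄Qb).Point := Pp + Pp with hQ
  have h4 : Q + Q = -Pp := by
    have h' : (5 : ℕ) • Pp = (Pp + Pp) + (Pp + Pp) + Pp := by abel
    rw [h'] at h5
    exact eq_neg_of_add_eq_zero_left h5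
  have k2 : 2 • Pp = Q := two_nsmul Pp
  have k3 : 3 • Pp = -Q := by
    have : (3 : ℕ) • Pp = Q + Q + Pp - Q := by rw [hQ]; abel
    rw [this, h4]; abel
  have k4 : 4 • Pp = -Pp := by
    have : (4 : ℕ) • Pp = Q + Q := by rw [hQ]; abel
    rw [this, h4]
  have hperm : ∀ σ : Γ, (σ x₁ = x₁ ∧ σ x₂ = x₂) ∨ (σ x₁ = x₂ ∧ σ x₂ = x₁) := by
    intro σ
    obtain ⟨n, hn⟩ := hgen (σ • P) (hst σ P hPN)
    have hn' : σ • Pp = n • Pp := congrArg Subtype.val hn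
    have hσ1 := hasX_smul σ hx1
    have hσ2 := hasX_smul σ hx2
    have hadd : σ • (Pp + Pp) = σ • Pp + σ • Pp := smul_add σ Pp Pp
    rw [hQ, hadd] at hσ2
    have hmod : n • Pp = (n % 5) • Pp := by
      conv_lhs => rw [← Nat.div_add_mod n 5, add_nsmul, mul_nsmul, h5, nsmul_zero, zero_add]
    rw [hn', hmod] at hσ1 hσ2
    have hlt : n % 5 < 5 := Nat.mod_lt _ (by norm_num)
    interval_cases hk : n % 5
    · exact absurd (zero_nsmul _) hσ1.ne_zero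
    · rw [one_nsmul] at hσ1 hσ2
      exact Or.inl ⟨hσ1.unique hx1, hσ2.unique hx2⟩
    · rw [k2] at hσ1 hσ2
      rw [h4] at hσ2
      exact Or.inr ⟨hσ1.unique hx2, hσ2.unique hx1.neg⟩
    · rw [k3] at hσ1 hσ2
      have : -Q + -Q = Pp := by rw [← neg_add, h4, neg_neg]
      rw [this] at hσ2
      exact Or.inr ⟨hσ1.unique hx2.neg, hσ2.unique hx1⟩
    · rw [k4] at hσ1 hσ2
      have : -Pp + -Pp = -Q := by rw [← neg_add]
      rw [this] at hσ2
      exact Or.inl ⟨hσ1.unique hx1.neg, hσ2.unique hx2.neg⟩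
  obtain ⟨s, hs⟩ := mem_range_of_fixed (x := x₁ + x₂) (fun σ => by
    rcases hperm σ with ⟨a, b⟩ | ⟨a, b⟩ <;> rw [map_add, a, b]
    exact add_comm _ _)
  obtain ⟨m, hm⟩ := mem_range_of_fixed (x := x₁ * x₂) (fun σ => by
    rcases hperm σ with ⟨a, b⟩ | ⟨a, b⟩ <;> rw [map_mul, a, b]
    exact mul_comm _ _)
  have hinj := (algebraMap ℚ Qb).injective
  simp only [psi2Sq, phi2, WeierstrassCurve.baseChange, map_b₂, map_b₄, map_b₆, map_b₈]
    at e1 e2 hD1 hD2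
  have hsub : x₁ - x₂ ≠ 0 := sub_ne_zero.mpr hne
  refine ⟨s, m, ?_, ?_, ?_, ?_⟩
  · intro h0
    have := congrArg (algebraMap ℚ Qb) h0
    simp only [map_sub, map_mul, map_pow, map_ofNat, _root_.map_zero, hs, hm] at this
    apply hsub
    have h2 : (x₁ - x₂) ^ 2 = 0 := by linear_combination this
    exact pow_eq_zero_iff (by norm_num) |>.mp h2
  · apply hinj
    simp only [map_add, map_sub, map_mul, map_pow, map_ofNat, hs, hm]
    apply mul_left_cancel₀ hsub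
    linear_combination e2 - e1
  · apply hinj
    simp only [map_add, map_sub, map_mul, map_pow, map_ofNat, hs, hm]
    linear_combination (-1 : Qb) * e1 - e2
  · intro r hr h0
    have hr' := congrArg (algebraMap ℚ Qb) hr
    have h0' := congrArg (algebraMap ℚ Qb) h0
    simp only [map_add, map_sub, map_mul, map_pow, map_ofNat, _root_.map_zero, hs, hm]
      at hr' h0'
    have hprod : (algebraMap ℚ Qb r - x₁) * (algebraMap ℚ Qb r - x₂) = 0 := by
      linear_combination h0'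
    rcases mul_eq_zero.mp hprod with hz | hz
    · have hrx : algebraMap ℚ Qb r = x₁ := sub_eq_zero.mp hz
      rw [hrx] at hr'
      apply mul_ne_zero hsub hD1
      linear_combination hr' + e1
    · have hrx : algebraMap ℚ Qb r = x₂ := sub_eq_zero.mp hz
      rw [hrx] at hr'
      apply mul_ne_zero hsub hD2
      linear_combination (-1 : Qb) * hr' - e2

end Fermat.Agent.S51.Gal

namespace Fermat.Agent.S51

open Fermat.Agent.S51.Gal

theorem red3 (W : WeierstrassCurve ℤ) (hΔ : W.Δ ≠ 0) (h : ¬ W.ModRepIsIrreducible 3) :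
    ∃ r : ℚ, 3 * r ^ 4 + (W.b₂ : ℚ) * r ^ 3 + 3 * (W.b₄ : ℚ) * r ^ 2 + 3 * (W.b₆ : ℚ) * r
      + (W.b₈ : ℚ) = 0 := by
  have hE : (W.map (Int.castRingHom ℚ)).IsElliptic := ⟨by
    rw [map_Δ, isUnit_iff_ne_zero]
    simpa using hΔ⟩
  have := red3_aux (E := W.map (Int.castRingHom ℚ)) h
  simpa only [map_b₂, map_b₄, map_b₆, map_b₈, eq_intCast] using this

theorem red5 (W : WeierstrassCurve ℤ) (hΔ : W.Δ ≠ 0) (h : ¬ W.ModRepIsIrreducible 5) :
    ∃ s m : ℚ, s ^ 2 - 4 * m ≠ 0 ∧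
      (W.b₂ : ℚ) * m + (W.b₄ : ℚ) * s + (W.b₆ : ℚ) = s ^ 3 - 6 * m * s ∧
      (W.b₂ : ℚ) * m * s + (W.b₄ : ℚ) * (s ^ 2 + 2 * m) + 3 * (W.b₆ : ℚ) * s + 2 * (W.b₈ : ℚ)
        = s ^ 4 - 8 * s ^ 2 * m + 10 * m ^ 2 ∧
      ∀ r : ℚ, 3 * r ^ 4 + (W.b₂ : ℚ) * r ^ 3 + 3 * (W.b₄ : ℚ) * r ^ 2 + 3 * (W.b₆ : ℚ) * r
        + (W.b₈ : ℚ) = 0 → r ^ 2 - s * r + m ≠ 0 := by
  have hE : (W.map (Int.castRingHom ℚ)).IsElliptic := ⟨by
    rw [map_Δ, isUnit_iff_ne_zero]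
    simpa using hΔ⟩
  have := red5_aux (E := W.map (Int.castRingHom ℚ)) h
  simpa only [map_b₂, map_b₄, map_b₆, map_b₈, eq_intCast] using this

end Fermat.Agent.S51
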