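import Fermat.Agent.S51.Descent

namespace Fermat.Agent.S51

/-- Integral form of `descent_rat`. -/
theorem descent_prod (q e n : ℤ) (hc : IsCoprime q e)
    (h : (q^2 - e^2) * (q^2 - 81*e^2) = n^2) : q = 0 ∨ e = 0 ∨ n = 0 := by
  by_cases hn : n = 0
  · exact Or.inr (Or.inr hn)
  have hA : q^2 - e^2 ≠ 0 := by
    intro h0; rw [h0, zero_mul] at h
    exact hn (pow_eq_zero_iff (by norm_num) |>.mp h.symm)
  have hg : 0 < Int.gcd (q^2 - e^2) (q^2 - 81*e^2) := Int.gcd_pos_of_ne_zero_left _ hA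
  obtain ⟨A, B, hAB, hA', hB'⟩ := Int.exists_gcd_one hg
  have hgA : (Int.gcd (q^2 - e^2) (q^2 - 81*e^2) : ℤ) ∣ q^2 - e^2 := Int.gcd_dvd_left ..
  have hgB : (Int.gcd (q^2 - e^2) (q^2 - 81*e^2) : ℤ) ∣ q^2 - 81*e^2 := Int.gcd_dvd_right ..
  have hg0' : (Int.gcd (q^2 - e^2) (q^2 - 81*e^2) : ℤ) ≠ 0 := by exact_mod_cast hg.ne'
  generalize (Int.gcd (q^2 - e^2) (q^2 - 81*e^2) : ℤ) = g at hA' hB' hgA hgB hg0'
  have hg80 : g ∣ 80 := by
    have d1 : g ∣ 80 * e^2 := by
      have := dvd_sub hgA hgB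
      have e1 : q^2 - e^2 - (q^2 - 81*e^2) = 80 * e^2 := by ring
      rwa [e1] at this
    have d2 : g ∣ 80 * q^2 := by
      have := dvd_sub (hgA.mul_left 81) hgB
      have e1 : 81 * (q^2 - e^2) - (q^2 - 81*e^2) = 80 * q^2 := by ring
      rwa [e1] at this
    obtain ⟨u, v, huv⟩ := hc.pow (m := 2) (n := 2)
    have h80 : (80:ℤ) = u * (80 * q^2) + v * (80*e^2) := by linear_combination (-80) * huv
    rw [h80]
    exact dvd_add (d2.mul_left _) (d1.mul_left _)
  have hgn : g ∣ n := by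
    rw [← Int.pow_dvd_pow_iff (n := 2) (by norm_num)]
    exact ⟨A * B, by rw [← h, hA', hB']; ring⟩
  obtain ⟨n', rfl⟩ := hgn
  have hn' : n' ≠ 0 := right_ne_zero_of_mul hn
  have hprod : A * B = n'^2 := by
    have : g^2 * (A * B) = g^2 * n'^2 := by
      rw [hA', hB'] at h; linear_combination h
    exact mul_left_cancel₀ (pow_ne_zero 2 hg0') this
  obtain ⟨Z, hZ⟩ := Int.sq_of_gcd_eq_one hAB hprod
  obtain ⟨T, hT⟩ := Int.sq_of_gcd_eq_one (a := B) (b := A) (c := n')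
    (by rw [Int.gcd_comm]; exact hAB) (by rw [mul_comm]; exact hprod)
  have hZ0 : Z ≠ 0 := by
    rintro rfl
    have : A = 0 := by rcases hZ with h | h <;> simpa using h
    rw [this, zero_mul] at hprod
    exact hn' (pow_eq_zero_iff (by norm_num) |>.mp hprod.symm)
  have hT0 : T ≠ 0 := by
    rintro rfl
    have : B = 0 := by rcases hT with h | h <;> simpa using h
    rw [this, mul_zero] at hprod
    exact hn' (pow_eq_zero_iff (by norm_num) |>.mp hprod.symm)
  have hpos : 0 < n'^2 := by positivity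
  have hZT : 0 < Z^2 * T^2 := by positivity
  have fin : ∀ w : ℤ, w ∣ 80 → q^2 - e^2 = w * Z^2 → q^2 - 81*e^2 = w * T^2 →
      q = 0 ∨ e = 0 ∨ g * n' = 0 := by
    intro w hw e1 e2
    rcases sw (max q.natAbs e.natAbs + 1) (noSol_all _) q e Z T w hw hc e1 e2
      (Nat.lt_succ_of_le (le_max_left _ _)) (Nat.lt_succ_of_le (le_max_right _ _)) with
      h | h | h | h
    · exact Or.inl h
    · exact Or.inr (Or.inl h)
    · exact absurd h hZ0
    · exact absurd h hT0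
  rcases hZ with hZ | hZ <;> rcases hT with hT | hT
  · exact fin g hg80 (by rw [hA', hZ]; ring) (by rw [hB', hT]; ring)
  · exfalso; rw [hZ, hT] at hprod; nlinarith
  · exfalso; rw [hZ, hT] at hprod; nlinarith
  · exact fin (-g) ((neg_dvd).mpr hg80) (by rw [hA', hZ]; ring) (by rw [hB', hT]; ring)

theorem descent_rat (t v : ℚ) (h : (t^2 - 1) * (t^2 - 81) = v^2) : t = 0 ∨ v = 0 := by
  have hden : (t.den : ℚ) ≠ 0 := by exact_mod_cast t.den_nz
  have ht : t = (t.num : ℚ) / (t.den : ℚ) := (Rat.num_div_den t).symm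
  have hsq : (((t.num^2 - (t.den:ℤ)^2) * (t.num^2 - 81 * (t.den:ℤ)^2) : ℤ) : ℚ)
      = (v * (t.den:ℚ)^2) * (v * (t.den:ℚ)^2) := by
    have e1 : (t.num : ℚ) = t * t.den := (Rat.mul_den_eq_num t).symm
    push_cast
    rw [e1]
    linear_combination ((t.den:ℚ)^4) * h
  have hsq' : IsSquare ((t.num^2 - (t.den:ℤ)^2) * (t.num^2 - 81 * (t.den:ℤ)^2) : ℤ) :=
    Rat.isSquare_intCast_iff.mp ⟨_, hsq⟩
  obtain ⟨n, hn⟩ := hsq'
  have hc : IsCoprime t.num (t.den : ℤ) := by
    rw [Int.isCoprime_iff_gcd_eq_one]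
    exact t.reduced
  rcases descent_prod t.num t.den n hc (by rw [hn]; ring) with h0 | h0 | h0
  · left; exact Rat.num_eq_zero.mp h0
  · exfalso; exact t.den_nz (by exact_mod_cast h0)
  · right
    rw [hn, h0] at hsq
    have : (v * (t.den:ℚ)^2) = 0 := by
      have h2 : (v * (t.den:ℚ)^2) * (v * (t.den:ℚ)^2) = 0 := by rw [← hsq]; simp
      exact mul_self_eq_zero.mp h2
    rcases mul_eq_zero.mp this with h | h
    · exact h
    · exact absurd (pow_eq_zero_iff (by norm_num) |>.mp h) hden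

end Fermat.Agent.S51
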