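import Mathlib
import Fermat.Agent.S51.DescentRat

set_option autoImplicit false

namespace Fermat.Agent.S51

/-- Core algebra in coordinates where the 3-torsion abscissa is `0`. -/
theorem moduli_core (B2 B4 B6 e1 e2 : ℚ) (E3 : B2 * B6 = B4 ^ 2)
    (EA : B2 * e2 + B4 * e1 + B6 = e1 ^ 3 - 6 * e1 * e2)
    (ES : B4 * e2 + B6 * e1 = e2 * (5 * e2 - e1 ^ 2))
    (hd : e1 ^ 2 - 4 * e2 ≠ 0) (he2 : e2 ≠ 0) :
    (-8 * B4 ^ 3 - 27 * B6 ^ 2 + 9 * B2 * B4 * B6 = 0) ∨
    (2 * (B2 ^ 2 - 24 * B4) ^ 3 = -25 * (-8 * B4 ^ 3 - 27 * B6 ^ 2 + 9 * B2 * B4 * B6)) ∨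
    (8 * (B2 ^ 2 - 24 * B4) ^ 3 = -349938025 * (-8 * B4 ^ 3 - 27 * B6 ^ 2 + 9 * B2 * B4 * B6)) ∨
    (32 * (B2 ^ 2 - 24 * B4) ^ 3 = -121945 * (-8 * B4 ^ 3 - 27 * B6 ^ 2 + 9 * B2 * B4 * B6)) ∨
    (32768 * (B2 ^ 2 - 24 * B4) ^ 3
      = 46969655 * (-8 * B4 ^ 3 - 27 * B6 ^ 2 + 9 * B2 * B4 * B6)) := by
  have hQ : B6 ^ 2 + e1 * e2 * B6 + e2 * (5 * e2 - e1 ^ 2) ^ 2 = 0 := by
    linear_combination (-e2) * E3 + B6 * EA - (B4 + 5 * e2 - e1 ^ 2) * ES
  -- B4 and B2 in terms of B6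
  have hB4 : B4 = (e2 * (5 * e2 - e1 ^ 2) - B6 * e1) / e2 := by
    field_simp
    linear_combination ES
  have hB2 : B2 = (e1 ^ 3 - 6 * e1 * e2 - B4 * e1 - B6) / e2 := by
    field_simp
    linear_combination EA
  by_cases h1 : e1 = 0
  · -- rho = 0
    right; right; right; left
    subst h1
    have h4 : B4 = 5 * e2 := by
      rw [hB4]; field_simp; ring
    have h6 : B6 ^ 2 = -25 * e2 ^ 3 := by linear_combination hQ
    have h2 : B2 * e2 = -B6 := by linear_combination EA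
    have h22 : B2 ^ 2 = -25 * e2 := by
      have : B2 ^ 2 * e2 ^ 2 = (-25 * e2) * e2 ^ 2 := by
        linear_combination (B2 * e2 - B6) * h2 + h6
      exact mul_right_cancel₀ (pow_ne_zero 2 he2) this
    have h26 : B2 * B6 = 25 * e2 ^ 2 := by rw [E3, h4]; ring
    rw [h22, h4]
    linear_combination (-121945 * 27 : ℚ) * h6 + (121945 * 45 * e2) * h26
  · have hY : (2 * B6 + e1 * e2) ^ 2 = e2 * (25 * e2 - 4 * e1 ^ 2) * (e1 ^ 2 - 4 * e2) := by
      linear_combination 4 * hQ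
    have key : ((-(2 * B6 + e1 * e2) / (e1 * e2)) ^ 2 - 1) *
        ((-(2 * B6 + e1 * e2) / (e1 * e2)) ^ 2 - 81)
        = (4 * (e1 ^ 4 - 25 * e2 ^ 2) / (e1 ^ 2 * e2)) ^ 2 := by
      have e : (-(2 * B6 + e1 * e2) / (e1 * e2)) ^ 2
          = (25 * e2 - 4 * e1 ^ 2) * (e1 ^ 2 - 4 * e2) / (e1 ^ 2 * e2) := by
        rw [div_pow, neg_sq, hY]
        field_simp
      rw [e]
      field_simp
      ring
    rcases descent_rat _ _ key with h | h
    · -- Y0 = 0
      have hY0 : 2 * B6 + e1 * e2 = 0 := by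
        have hne : e1 * e2 ≠ 0 := mul_ne_zero h1 he2
        rw [div_eq_zero_iff] at h
        rcases h with h | h
        · linear_combination -h
        · exact absurd h hne
      have h25 : 25 * e2 - 4 * e1 ^ 2 = 0 := by
        have : e2 * (25 * e2 - 4 * e1 ^ 2) * (e1 ^ 2 - 4 * e2) = 0 := by
          rw [← hY, hY0]; ring
        rcases mul_eq_zero.mp this with h' | h'
        · rcases mul_eq_zero.mp h' with h'' | h''
          · exact absurd h'' he2
          · exact h''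
        · exact absurd h' hd
      right; right; right; right
      have he : e2 = 4 * e1 ^ 2 / 25 := by linear_combination h25 / 25
      have h6 : B6 = -2 * e1 ^ 3 / 25 := by
        have : B6 = -(e1 * e2) / 2 := by linear_combination hY0 / 2
        rw [this, he]; ring
      have h4 : B4 = 3 * e1 ^ 2 / 10 := by
        rw [hB4, h6, he]; field_simp; ring
      have h2 : B2 = -9 * e1 / 8 := by
        rw [hB2, h4, h6, he]; field_simp; ring
      rw [h2, h4, h6]; ring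
    · -- nu = 0
      have hnu : e1 ^ 4 - 25 * e2 ^ 2 = 0 := by
        have hne : e1 ^ 2 * e2 ≠ 0 := mul_ne_zero (pow_ne_zero 2 h1) he2
        rw [div_eq_zero_iff] at h
        rcases h with h | h
        · linear_combination h / 4
        · exact absurd h hne
      have hfac : (e1 ^ 2 - 5 * e2) * (e1 ^ 2 + 5 * e2) = 0 := by linear_combination hnu
      rcases mul_eq_zero.mp hfac with h5 | h5
      · -- e1^2 = 5 e2
        have he : e2 = e1 ^ 2 / 5 := by linear_combination -h5 / 5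
        have hq : B6 * (B6 + e1 * e2) = 0 := by
          linear_combination hQ - e2 * (e1 ^ 2 - 5 * e2) * h5
        rcases mul_eq_zero.mp hq with h6 | h6
        · left
          have h4 : B4 = 0 := by
            have : B4 ^ 2 = 0 := by rw [← E3, h6]; ring
            exact pow_eq_zero_iff (two_ne_zero) |>.mp this
          rw [h4, h6]; ring
        · right; left
          have h6' : B6 = -e1 ^ 3 / 5 := by
            have : B6 = -(e1 * e2) := by linear_combination h6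
            rw [this, he]; ring
          have h4 : B4 = e1 ^ 2 := by
            rw [hB4, h6', he]; field_simp; ring
          have h2 : B2 = -5 * e1 := by
            rw [hB2, h4, h6', he]; field_simp; ring
          rw [h2, h4, h6']; ring
      · -- e1^2 = -5 e2
        have he : e2 = -e1 ^ 2 / 5 := by linear_combination h5 / 5
        have hq : (B6 - 4 * e1 * e2) * (B6 + 5 * e1 * e2) = 0 := by
          linear_combination hQ - e2 * (e1 ^ 2 + 5 * e2) * h5
        rcases mul_eq_zero.mp hq with h6 | h6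
        · right; right; left
          have h6' : B6 = -4 * e1 ^ 3 / 5 := by
            have : B6 = 4 * e1 * e2 := by linear_combination h6
            rw [this, he]; ring
          have h4 : B4 = -6 * e1 ^ 2 := by
            rw [hB4, h6', he]; field_simp; ring
          have h2 : B2 = -45 * e1 := by
            rw [hB2, h4, h6', he]; field_simp; ring
          rw [h2, h4, h6']; ring
        · left
          have h6' : B6 = e1 ^ 3 := by
            have : B6 = -5 * e1 * e2 := by linear_combination h6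
            rw [this, he]; ring
          have h4 : B4 = 3 * e1 ^ 2 := by
            rw [hB4, h6', he]; field_simp; ring
          have h2 : B2 = 9 * e1 := by
            rw [hB2, h4, h6', he]; field_simp; ring
          rw [h2, h4, h6']; ring

/-- The moduli statement in terms of the `b`-invariants of an arbitrary Weierstrass model. -/
theorem moduli (b2 b4 b6 b8 r s m : ℚ) (hb : 4 * b8 = b2 * b6 - b4 ^ 2)
    (h3 : 3 * r ^ 4 + b2 * r ^ 3 + 3 * b4 * r ^ 2 + 3 * b6 * r + b8 = 0)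
    (hA : b2 * m + b4 * s + b6 = s ^ 3 - 6 * m * s)
    (hS : b2 * m * s + b4 * (s ^ 2 + 2 * m) + 3 * b6 * s + 2 * b8
      = s ^ 4 - 8 * s ^ 2 * m + 10 * m ^ 2)
    (hne : s ^ 2 - 4 * m ≠ 0) (he2 : r ^ 2 - s * r + m ≠ 0) :
    (-b2 ^ 2 * b8 - 8 * b4 ^ 3 - 27 * b6 ^ 2 + 9 * b2 * b4 * b6 = 0) ∨
    (2 * (b2 ^ 2 - 24 * b4) ^ 3
      = -25 * (-b2 ^ 2 * b8 - 8 * b4 ^ 3 - 27 * b6 ^ 2 + 9 * b2 * b4 * b6)) ∨
    (8 * (b2 ^ 2 - 24 * b4) ^ 3
      = -349938025 * (-b2 ^ 2 * b8 - 8 * b4 ^ 3 - 27 * b6 ^ 2 + 9 * b2 * b4 * b6)) ∨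
    (32 * (b2 ^ 2 - 24 * b4) ^ 3
      = -121945 * (-b2 ^ 2 * b8 - 8 * b4 ^ 3 - 27 * b6 ^ 2 + 9 * b2 * b4 * b6)) ∨
    (32768 * (b2 ^ 2 - 24 * b4) ^ 3
      = 46969655 * (-b2 ^ 2 * b8 - 8 * b4 ^ 3 - 27 * b6 ^ 2 + 9 * b2 * b4 * b6)) := by
  set B2 : ℚ := b2 + 12 * r with hB2
  set B4 : ℚ := b4 + r * b2 + 6 * r ^ 2 with hB4
  set B6 : ℚ := b6 + 2 * r * b4 + r ^ 2 * b2 + 4 * r ^ 3 with hB6
  set e1 : ℚ := s - 2 * r with he1
  set e2 : ℚ := r ^ 2 - s * r + m with he2'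
  have E3 : B2 * B6 = B4 ^ 2 := by
    rw [hB2, hB4, hB6]
    linear_combination 4 * h3 - hb
  have EA : B2 * e2 + B4 * e1 + B6 = e1 ^ 3 - 6 * e1 * e2 := by
    rw [hB2, hB4, hB6, he1, he2']
    linear_combination hA
  have ES0 : B2 * e2 * e1 + B4 * (e1 ^ 2 + 2 * e2) + 3 * B6 * e1
      = e1 ^ 4 - 8 * e1 ^ 2 * e2 + 10 * e2 ^ 2 := by
    rw [hB2, hB4, hB6, he1, he2']
    linear_combination hS - 2 * h3
  have ES : B4 * e2 + B6 * e1 = e2 * (5 * e2 - e1 ^ 2) := by
    linear_combination ES0 / 2 - e1 / 2 * EA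
  have hd : e1 ^ 2 - 4 * e2 ≠ 0 := by
    have : e1 ^ 2 - 4 * e2 = s ^ 2 - 4 * m := by rw [he1, he2']; ring
    rw [this]; exact hne
  have hc4 : b2 ^ 2 - 24 * b4 = B2 ^ 2 - 24 * B4 := by rw [hB2, hB4]; ring
  have hD : -b2 ^ 2 * b8 - 8 * b4 ^ 3 - 27 * b6 ^ 2 + 9 * b2 * b4 * b6
      = -8 * B4 ^ 3 - 27 * B6 ^ 2 + 9 * B2 * B4 * B6 := by
    rw [hB2, hB4, hB6]
    linear_combination (6 * b2 * r + 36 * r ^ 2) * hb - (b2 + 12 * r) ^ 2 * h3
  rw [hc4, hD]
  exact moduli_core B2 B4 B6 e1 e2 E3 EA ES hd he2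

end Fermat.Agent.S51
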