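import Fermat.Agent.S51.DescentSW

namespace Fermat.Agent.S51

/-- Core of the descent after the two Pythagorean parametrisations. -/
theorem descent_core (N : ℕ) (IH : NoSol N) (m n k l : ℤ) (hkl : k * l = m * n)
    (hq : m^2 + n^2 = 81*k^2 + l^2) (hmn : IsCoprime m n) (hN : (2*m*n).natAbs ≤ N) :
    m * n = 0 := by
  by_contra hne
  have hm : m ≠ 0 := left_ne_zero_of_mul hne
  obtain ⟨a1, a2, ⟨a3, hk⟩, ⟨a4, hl⟩, hm'⟩ :=
    exists_dvd_and_dvd_of_dvd_mul (Dvd.intro n hkl.symm : m ∣ k * l)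
  subst hk hl hm'
  have hn' : n = a3 * a4 := by
    have : (a1 * a2) * n = (a1 * a2) * (a3 * a4) := by rw [← hkl]; ring
    exact mul_left_cancel₀ hm this
  subst hn'
  have hn : a3 * a4 ≠ 0 := right_ne_zero_of_mul hne
  have h1 : a1 ≠ 0 := left_ne_zero_of_mul hm
  have h2 : a2 ≠ 0 := right_ne_zero_of_mul hm
  have h3 : a3 ≠ 0 := left_ne_zero_of_mul hn
  have h4 : a4 ≠ 0 := right_ne_zero_of_mul hn
  have c14 : IsCoprime a1 a4 := (hmn.of_mul_left_left).of_mul_right_right
  have c23 : IsCoprime a2 a3 := (hmn.of_mul_left_right).of_mul_right_left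
  have key : a1^2 * (a2^2 - 81*a3^2) = a4^2 * (a2^2 - a3^2) := by linear_combination hq
  have hdvd : a1^2 ∣ a2^2 - a3^2 :=
    (c14.pow (m := 2) (n := 2)).dvd_of_dvd_mul_left (Dvd.intro _ key)
  obtain ⟨w, hw⟩ := hdvd
  have hw2 : a2^2 - 81*a3^2 = w * a4^2 := by
    have : a1^2 * (a2^2 - 81*a3^2) = a1^2 * (w * a4^2) := by rw [key, hw]; ring
    exact mul_left_cancel₀ (pow_ne_zero 2 h1) this
  have hw80 : w ∣ 80 := by
    have d1 : w ∣ 80 * a3^2 := ⟨a1^2 - a4^2, by linear_combination hw - hw2⟩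
    have d2 : w ∣ 80 * a2^2 := ⟨81*a1^2 - a4^2, by linear_combination 81 * hw - hw2⟩
    obtain ⟨u, v, huv⟩ := c23.pow (m := 2) (n := 2)
    have h80 : (80:ℤ) = u * (80 * a2^2) + v * (80*a3^2) := by linear_combination (-80) * huv
    rw [h80]
    exact dvd_add (d2.mul_left _) (d1.mul_left _)
  have p1 : 1 ≤ a1.natAbs := Int.natAbs_pos.mpr h1
  have p2 : 1 ≤ a2.natAbs := Int.natAbs_pos.mpr h2
  have p3 : 1 ≤ a3.natAbs := Int.natAbs_pos.mpr h3
  have p4 : 1 ≤ a4.natAbs := Int.natAbs_pos.mpr h4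
  have hN' : 2 * (a1.natAbs * a2.natAbs) * (a3.natAbs * a4.natAbs) ≤ N := by
    simpa [Int.natAbs_mul] using hN
  have b2 : a2.natAbs < N := by
    have : 1 ≤ a1.natAbs * (a3.natAbs * a4.natAbs) :=
      Nat.mul_pos p1 (Nat.mul_pos p3 p4)
    have := Nat.mul_le_mul_left a2.natAbs this
    nlinarith
  have b3 : a3.natAbs < N := by
    have : 1 ≤ a1.natAbs * (a2.natAbs * a4.natAbs) :=
      Nat.mul_pos p1 (Nat.mul_pos p2 p4)
    have := Nat.mul_le_mul_left a3.natAbs this
    nlinarith
  rcases sw N IH a2 a3 a1 a4 w hw80 c23 (by rw [hw]; ring) hw2 b2 b3 with h | h | h | h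
  · exact h2 h
  · exact h3 h
  · exact h1 h
  · exact h4 h

theorem sq_emod_eight (x : ℤ) : x^2 % 8 = 0 ∨ x^2 % 8 = 1 ∨ x^2 % 8 = 4 := by
  have h : x % 8 = 0 ∨ x % 8 = 1 ∨ x % 8 = 2 ∨ x % 8 = 3 ∨ x % 8 = 4 ∨ x % 8 = 5 ∨
      x % 8 = 6 ∨ x % 8 = 7 := by omega
  rcases h with h | h | h | h | h | h | h | h <;> simp [pow_two, Int.mul_emod, h]

theorem sq_emod_eight_of_odd (x : ℤ) (hx : x % 2 = 1) : x^2 % 8 = 1 := by
  have h : x % 8 = 1 ∨ x % 8 = 3 ∨ x % 8 = 5 ∨ x % 8 = 7 := by omega
  rcases h with h | h | h | h <;> simp [pow_two, Int.mul_emod, h]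

theorem sq_emod_four_of_even (x : ℤ) (hx : x % 2 = 0) : x^2 % 4 = 0 := by
  have h : x % 4 = 0 ∨ x % 4 = 2 := by omega
  rcases h with h | h <;> simp [pow_two, Int.mul_emod, h]

/-- The coprime case with `q > 0`. -/
theorem noSol_coprime_pos (N : ℕ) (IH : NoSol N) (q e p r : ℤ) (h1 : e^2 + p^2 = q^2)
    (h2 : 81*e^2 + r^2 = q^2) (hc : IsCoprime q e) (hq : 0 < q) (hN : e.natAbs ≤ N) :
    e = 0 := by
  -- coprimality facts
  have cep : IsCoprime e p := by
    have h : IsCoprime e (q^2) := hc.symm.pow_right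
    rw [← h1, add_comm, pow_two e] at h
    exact (IsCoprime.pow_right_iff (by norm_num)).mp h.of_add_mul_left_right
  have h3q : ¬ (3:ℤ) ∣ q := by
    intro h3
    have h3e : (3:ℤ) ∣ e := (three_dvd_of_sq_add_sq e p (h1 ▸ Dvd.dvd.pow h3 (by norm_num))).1
    have := hc.isUnit_of_dvd' h3 h3e
    exact absurd this (by decide)
  have c3q : IsCoprime (3:ℤ) q :=
    (Int.prime_three.coprime_iff_not_dvd).mpr h3q
  have c9eq : IsCoprime (9*e) q := by
    have : IsCoprime ((3:ℤ)^2) q := c3q.pow_left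
    exact IsCoprime.mul_left (by norm_num at this; exact this) hc.symm
  have cer : IsCoprime (9*e) r := by
    have h : IsCoprime (9*e) (q^2) := c9eq.pow_right
    have h2' : q^2 = r^2 + (9*e) * (9*e) := by linear_combination -h2
    rw [h2'] at h
    exact (IsCoprime.pow_right_iff (by norm_num)).mp h.of_add_mul_left_right
  rcases Int.emod_two_eq_zero_or_one e with he | he
  · -- `e` even
    have hq2 : q % 2 = 1 := by
      rcases Int.emod_two_eq_zero_or_one q with h | h
      · exfalso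
        have := hc.isUnit_of_dvd' (Int.dvd_of_emod_eq_zero h) (Int.dvd_of_emod_eq_zero he)
        exact absurd this (by decide)
      · exact h
    have hp2 : p % 2 = 1 := by
      rcases Int.emod_two_eq_zero_or_one p with h | h
      · exfalso
        have a := sq_emod_four_of_even e he
        have b := sq_emod_four_of_even p h
        have c := sq_emod_eight_of_odd q hq2
        omega
      · exact h
    have hr2 : r % 2 = 1 := by
      rcases Int.emod_two_eq_zero_or_one r with h | h
      · exfalso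
        have a := sq_emod_four_of_even e he
        have b := sq_emod_four_of_even r h
        have c := sq_emod_eight_of_odd q hq2
        omega
      · exact h
    have t1 : PythagoreanTriple p e q := by
      unfold PythagoreanTriple; linear_combination h1
    have t2 : PythagoreanTriple r (9*e) q := by
      unfold PythagoreanTriple; linear_combination h2
    obtain ⟨m, n, -, hemn, hqmn, hgmn, -, -⟩ :=
      t1.coprime_classification' (Int.isCoprime_iff_gcd_eq_one.mp cep.symm) hp2 hq
    obtain ⟨k, l, -, hekl, hqkl, hgkl, -, -⟩ :=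
      t2.coprime_classification' (Int.isCoprime_iff_gcd_eq_one.mp cer.symm) hr2 hq
    have cmn : IsCoprime m n := Int.isCoprime_iff_gcd_eq_one.mpr hgmn
    have ckl : IsCoprime k l := Int.isCoprime_iff_gcd_eq_one.mpr hgkl
    have hkl : k * l = 9 * (m * n) := by
      have : 2 * (k * l) = 2 * (9 * (m * n)) := by
        linear_combination (-1 : ℤ) * hekl + 9 * hemn
      exact mul_left_cancel₀ (by norm_num) this
    have hN' : (2 * m * n).natAbs ≤ N := hemn ▸ hN
    have h3kl : (3:ℤ) ∣ k * l := ⟨3 * (m * n), by rw [hkl]; ring⟩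
    have h9kl : (9:ℤ) ∣ k * l := ⟨m * n, hkl⟩
    have hmn0 : m * n = 0 := by
      rcases Int.prime_three.dvd_or_dvd h3kl with h3 | h3
      · -- `3 ∣ k`, so `9 ∣ k`
        have c3l : IsCoprime (3:ℤ) l := ckl.of_isCoprime_of_dvd_left h3
        have c9l : IsCoprime (9:ℤ) l := by
          have : IsCoprime ((3:ℤ)^2) l := c3l.pow_left
          norm_num at this; exact this
        obtain ⟨k', rfl⟩ := c9l.dvd_of_dvd_mul_right h9kl
        refine descent_core N IH m n k' l ?_ ?_ cmn hN'
        · have : 9 * (k' * l) = 9 * (m * n) := by rw [← hkl]; ring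
          exact mul_left_cancel₀ (by norm_num) this
        · linear_combination hqkl - hqmn
      · have c3k : IsCoprime (3:ℤ) k := ckl.symm.of_isCoprime_of_dvd_left h3
        have c9k : IsCoprime (9:ℤ) k := by
          have : IsCoprime ((3:ℤ)^2) k := c3k.pow_left
          norm_num at this; exact this
        obtain ⟨l', rfl⟩ := c9k.dvd_of_dvd_mul_left h9kl
        refine descent_core N IH m n l' k ?_ ?_ cmn hN'
        · have : 9 * (l' * k) = 9 * (m * n) := by rw [← hkl]; ring
          exact mul_left_cancel₀ (by norm_num) this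
        · linear_combination hqkl - hqmn
    rw [hemn, mul_assoc, hmn0, mul_zero]
  · -- `e` odd: impossible
    exfalso
    have t1 : PythagoreanTriple e p q := by
      unfold PythagoreanTriple; linear_combination h1
    have t2 : PythagoreanTriple (9*e) r q := by
      unfold PythagoreanTriple; linear_combination h2
    have he9 : (9 * e) % 2 = 1 := by omega
    obtain ⟨m, n, hemn, -, hqmn, -, hpar, -⟩ :=
      t1.coprime_classification' (Int.isCoprime_iff_gcd_eq_one.mp cep) he hq
    obtain ⟨k, l, hekl, -, hqkl, -, -, -⟩ :=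
      t2.coprime_classification' (Int.isCoprime_iff_gcd_eq_one.mp cer) he9 hq
    have hk : k^2 = 5 * m^2 - 4 * n^2 := by
      have : 2 * k^2 = 2 * (5 * m^2 - 4 * n^2) := by
        linear_combination (-1 : ℤ) * hekl - hqkl + 9 * hemn + hqmn
      exact mul_left_cancel₀ (by norm_num) this
    have hl : l^2 = 5 * n^2 - 4 * m^2 := by
      have : 2 * l^2 = 2 * (5 * n^2 - 4 * m^2) := by
        linear_combination hekl - hqkl - 9 * hemn + hqmn
      exact mul_left_cancel₀ (by norm_num) this
    have sk := sq_emod_eight k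
    have sl := sq_emod_eight l
    rcases hpar with ⟨hm, hn⟩ | ⟨hm, hn⟩
    · have a := sq_emod_four_of_even m hm
      have b := sq_emod_eight_of_odd n hn
      omega
    · have a := sq_emod_eight_of_odd m hm
      have b := sq_emod_four_of_even n hn
      omega

/-- The coprime case. -/
theorem noSol_coprime (N : ℕ) (IH : NoSol N) (q e p r : ℤ) (h1 : e^2 + p^2 = q^2)
    (h2 : 81*e^2 + r^2 = q^2) (hc : IsCoprime q e) (hN : e.natAbs ≤ N) : e = 0 := by
  rcases lt_trichotomy q 0 with hq | hq | hq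
  · exact noSol_coprime_pos N IH (-q) e p r (by rw [h1]; ring) (by rw [h2]; ring)
      hc.neg_left (by omega) hN
  · subst hq
    have : e^2 + p^2 = 0 := by rw [h1]; ring
    have he : e^2 = 0 := by nlinarith [sq_nonneg e, sq_nonneg p]
    exact pow_eq_zero_iff (by norm_num) |>.mp he
  · exact noSol_coprime_pos N IH q e p r h1 h2 hc hq hN

theorem noSol_succ (N : ℕ) (IH : NoSol N) : NoSol (N + 1) := by
  intro q e p r h1 h2 hlt
  by_contra he
  have hg : 0 < Int.gcd q e := Int.gcd_pos_of_ne_zero_right q he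
  obtain ⟨q', e', hg1, hq', he'⟩ := Int.exists_gcd_one hg
  set g : ℤ := (Int.gcd q e : ℤ) with hgdef
  have hg0 : g ≠ 0 := by
    rw [hgdef]; exact_mod_cast hg.ne'
  have hgp : g ∣ p := by
    rw [← Int.pow_dvd_pow_iff (n := 2) (by norm_num)]
    exact ⟨q'^2 - e'^2, by rw [hq', he'] at h1; linear_combination h1⟩
  have hgr : g ∣ r := by
    rw [← Int.pow_dvd_pow_iff (n := 2) (by norm_num)]
    exact ⟨q'^2 - 81 * e'^2, by rw [hq', he'] at h2; linear_combination h2⟩
  obtain ⟨p', hp'⟩ := hgp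
  obtain ⟨r', hr'⟩ := hgr
  have hg2 : g^2 ≠ 0 := pow_ne_zero 2 hg0
  have h1' : e'^2 + p'^2 = q'^2 := by
    have : g^2 * (e'^2 + p'^2) = g^2 * q'^2 := by
      rw [hq', he', hp'] at h1; linear_combination h1
    exact mul_left_cancel₀ hg2 this
  have h2' : 81 * e'^2 + r'^2 = q'^2 := by
    have : g^2 * (81 * e'^2 + r'^2) = g^2 * q'^2 := by
      rw [hq', he', hr'] at h2; linear_combination h2
    exact mul_left_cancel₀ hg2 this
  have hle : e'.natAbs ≤ N := by
    have h : e.natAbs = e'.natAbs * g.natAbs := by rw [he', Int.natAbs_mul]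
    have hgpos : 1 ≤ g.natAbs := Int.natAbs_pos.mpr hg0
    have : e'.natAbs * 1 ≤ e'.natAbs * g.natAbs := Nat.mul_le_mul_left _ hgpos
    omega
  have := noSol_coprime N IH q' e' p' r' h1' h2' (Int.isCoprime_iff_gcd_eq_one.mpr hg1) hle
  apply he
  rw [he', this, zero_mul]

theorem noSol_all (N : ℕ) : NoSol N := by
  induction N with
  | zero => intro q e p r _ _ h; exact absurd h (Nat.not_lt_zero _)
  | succ N ih => exact noSol_succ N ih

theorem descent_int (q e p r : ℤ) (h1 : e^2 + p^2 = q^2) (h2 : 81*e^2 + r^2 = q^2) : e = 0 :=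
  noSol_all (e.natAbs + 1) q e p r h1 h2 (Nat.lt_succ_self _)

end Fermat.Agent.S51
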