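import Mathlib

set_option autoImplicit false

namespace Fermat.Agent.S51

/-- System I has no solution with `0 < |e| < n`. -/
def NoSol (n : ℕ) : Prop :=
  ∀ q e p r : ℤ, e ^ 2 + p ^ 2 = q ^ 2 → 81 * e ^ 2 + r ^ 2 = q ^ 2 → e.natAbs < n → e = 0

theorem three_dvd_of_sq_add_sq (a b : ℤ) (h : (3 : ℤ) ∣ a ^ 2 + b ^ 2) :
    (3 : ℤ) ∣ a ∧ (3 : ℤ) ∣ b := by
  have ha : a % 3 = 0 ∨ a % 3 = 1 ∨ a % 3 = 2 := by omega
  have hb : b % 3 = 0 ∨ b % 3 = 1 ∨ b % 3 = 2 := by omega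
  have h' : (a ^ 2 + b ^ 2) % 3 = 0 := Int.emod_eq_zero_of_dvd h
  rcases ha with ha | ha | ha <;> rcases hb with hb | hb | hb <;>
    first | (simp [pow_two, Int.add_emod, Int.mul_emod, ha, hb] at h'; done) | omega

theorem nine_dvd_of_sq_add_sq (a b c : ℤ) (h : a ^ 2 + b ^ 2 = 81 * c ^ 2) :
    (9 : ℤ) ∣ a ∧ (9 : ℤ) ∣ b := by
  obtain ⟨⟨a', rfl⟩, ⟨b', rfl⟩⟩ := three_dvd_of_sq_add_sq a b ⟨27 * c ^ 2, by rw [h]; ring⟩
  have h2 : a' ^ 2 + b' ^ 2 = 9 * c ^ 2 := by linarith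
  obtain ⟨⟨a'', rfl⟩, ⟨b'', rfl⟩⟩ := three_dvd_of_sq_add_sq a' b' ⟨3 * c ^ 2, by rw [h2]; ring⟩
  exact ⟨⟨a'', by ring⟩, ⟨b'', by ring⟩⟩

theorem sw_one (n : ℕ) (IH : NoSol n) (X Y Z T : ℤ) (h1 : X ^ 2 - Y ^ 2 = Z ^ 2)
    (h2 : X ^ 2 - 81 * Y ^ 2 = T ^ 2) (hY : Y.natAbs < n) : Y = 0 :=
  IH X Y Z T (by linarith) (by linarith) hY

theorem sw_neg_one (n : ℕ) (IH : NoSol n) (X Y Z T : ℤ) (h1 : X ^ 2 - Y ^ 2 = -Z ^ 2)
    (h2 : X ^ 2 - 81 * Y ^ 2 = -T ^ 2) (hX : X.natAbs < n) : X = 0 := by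
  obtain ⟨⟨X', rfl⟩, ⟨T', rfl⟩⟩ := nine_dvd_of_sq_add_sq X T Y (by linarith)
  have := IH Y X' T' Z (by linarith) (by linarith) (by omega)
  rw [this]; ring

theorem sw_neg_five (n : ℕ) (IH : NoSol n) (X Y Z T : ℤ) (h1 : X ^ 2 - Y ^ 2 = -5 * Z ^ 2)
    (h2 : X ^ 2 - 81 * Y ^ 2 = -5 * T ^ 2) (hY : Y.natAbs < n) : Z = 0 := by
  have hZ : Z.natAbs ≤ Y.natAbs := by
    rw [Int.natAbs_le_iff_sq_le]
    nlinarith [sq_nonneg X, sq_nonneg Z]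
  exact IH T Z (4 * Y) (4 * X) (by linarith) (by linarith) (by omega)

theorem sw_five (n : ℕ) (IH : NoSol n) (X Y Z T : ℤ) (h1 : X ^ 2 - Y ^ 2 = 5 * Z ^ 2)
    (h2 : X ^ 2 - 81 * Y ^ 2 = 5 * T ^ 2) (hX : X.natAbs < n) : T = 0 := by
  have hT : T.natAbs ≤ X.natAbs := by
    rw [Int.natAbs_le_iff_sq_le]
    nlinarith [sq_nonneg Y, sq_nonneg T]
  obtain ⟨⟨T', rfl⟩, ⟨X4, hX4⟩⟩ := nine_dvd_of_sq_add_sq T (4 * X) Z (by linarith)
  have hX9 : (9 : ℤ) ∣ X := by omega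
  obtain ⟨X', rfl⟩ := hX9
  have := IH Z T' (4 * X') (4 * Y) (by linarith) (by linarith) (by omega)
  rw [this]; ring

theorem sw_bad (X Y Z T w : ℤ) (hw : w = 1 ∨ w = -1 ∨ w = 5 ∨ w = -5) (hXY : IsCoprime X Y)
    (h1 : X ^ 2 - Y ^ 2 = 2 * w * Z ^ 2) (h2 : X ^ 2 - 81 * Y ^ 2 = 2 * w * T ^ 2) : False := by
  obtain ⟨a, b, hab⟩ := hXY
  rcases Int.even_or_odd' X with ⟨x, rfl | rfl⟩ <;> rcases Int.even_or_odd' Y with ⟨y, rfl | rfl⟩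
  · ring_nf at hab; omega
  · rcases hw with rfl | rfl | rfl | rfl <;> ring_nf at h1 <;> omega
  · rcases hw with rfl | rfl | rfl | rfl <;> ring_nf at h1 <;> omega
  · -- both odd
    have hx : Even (x * (x + 1)) := Int.even_mul_succ_self x
    have hy : Even (y * (y + 1)) := Int.even_mul_succ_self y
    obtain ⟨u, hu⟩ := hx
    obtain ⟨v, hv⟩ := hy
    have hx2 : x ^ 2 = 2 * u - x := by linarith
    have hy2 : y ^ 2 = 2 * v - y := by linarith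
    rcases Int.even_or_odd' Z with ⟨z, rfl | rfl⟩ <;> rcases Int.even_or_odd' T with ⟨t, rfl | rfl⟩
    · rcases Int.even_or_odd' z with ⟨z', rfl | rfl⟩ <;>
        rcases Int.even_or_odd' t with ⟨t', rfl | rfl⟩ <;>
        rcases hw with rfl | rfl | rfl | rfl <;> ring_nf at h1 h2 <;> omega
    · rcases hw with rfl | rfl | rfl | rfl <;> ring_nf at h1 h2 <;> omega
    · rcases hw with rfl | rfl | rfl | rfl <;> ring_nf at h1 h2 <;> omega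
    · rcases hw with rfl | rfl | rfl | rfl <;> ring_nf at h1 h2 <;> omega

theorem dvd_eighty (w : ℤ) (hw : w ∣ 80) :
    w = 1 ∨ w = -1 ∨ w = 2 ∨ w = -2 ∨ w = 4 ∨ w = -4 ∨ w = 5 ∨ w = -5 ∨ w = 8 ∨ w = -8 ∨
    w = 10 ∨ w = -10 ∨ w = 16 ∨ w = -16 ∨ w = 20 ∨ w = -20 ∨ w = 40 ∨ w = -40 ∨
    w = 80 ∨ w = -80 := by
  have h1 : w.natAbs ∈ Nat.divisors 80 := by
    rw [Nat.mem_divisors]
    exact ⟨by simpa using Int.natAbs_dvd_natAbs.mpr hw, by norm_num⟩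
  have h2 : Nat.divisors 80 = {1, 2, 4, 5, 8, 10, 16, 20, 40, 80} := by decide
  rw [h2] at h1
  simp only [Finset.mem_insert, Finset.mem_singleton] at h1
  omega

theorem sw (n : ℕ) (IH : NoSol n) (X Y Z T w : ℤ) (hw : w ∣ 80) (hXY : IsCoprime X Y)
    (h1 : X ^ 2 - Y ^ 2 = w * Z ^ 2) (h2 : X ^ 2 - 81 * Y ^ 2 = w * T ^ 2)
    (hX : X.natAbs < n) (hY : Y.natAbs < n) : X = 0 ∨ Y = 0 ∨ Z = 0 ∨ T = 0 := by
  have c1 : ∀ c : ℤ, c ≠ 0 → w = c ^ 2 → Y = 0 := fun c _ hc =>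
    sw_one n IH X Y (c * Z) (c * T) (by rw [h1, hc]; ring) (by rw [h2, hc]; ring) hY
  have c2 : ∀ c : ℤ, c ≠ 0 → w = -c ^ 2 → X = 0 := fun c _ hc =>
    sw_neg_one n IH X Y (c * Z) (c * T) (by rw [h1, hc]; ring) (by rw [h2, hc]; ring) hX
  have c3 : ∀ c : ℤ, c ≠ 0 → w = 5 * c ^ 2 → T = 0 := fun c hc0 hc => by
    have := sw_five n IH X Y (c * Z) (c * T) (by rw [h1, hc]; ring) (by rw [h2, hc]; ring) hX
    exact (mul_eq_zero.mp this).resolve_left hc0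
  have c4 : ∀ c : ℤ, c ≠ 0 → w = -5 * c ^ 2 → Z = 0 := fun c hc0 hc => by
    have := sw_neg_five n IH X Y (c * Z) (c * T) (by rw [h1, hc]; ring) (by rw [h2, hc]; ring) hY
    exact (mul_eq_zero.mp this).resolve_left hc0
  have c5 : ∀ c w' : ℤ, (w' = 1 ∨ w' = -1 ∨ w' = 5 ∨ w' = -5) → w = 2 * w' * c ^ 2 → False :=
    fun c w' hw' hc =>
      sw_bad X Y (c * Z) (c * T) w' hw' hXY (by rw [h1, hc]; ring) (by rw [h2, hc]; ring)
  rcases dvd_eighty w hw with h | h | h | h | h | h | h | h | h | h | h | h | h | h | h | h | h |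
    h | h | h
  · exact Or.inr (Or.inl (c1 1 (by norm_num) (by rw [h]; norm_num)))
  · exact Or.inl (c2 1 (by norm_num) (by rw [h]; norm_num))
  · exact (c5 1 1 (by norm_num) (by rw [h]; norm_num)).elim
  · exact (c5 1 (-1) (by norm_num) (by rw [h]; norm_num)).elim
  · exact Or.inr (Or.inl (c1 2 (by norm_num) (by rw [h]; norm_num)))
  · exact Or.inl (c2 2 (by norm_num) (by rw [h]; norm_num))
  · exact Or.inr (Or.inr (Or.inr (c3 1 (by norm_num) (by rw [h]; norm_num))))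
  · exact Or.inr (Or.inr (Or.inl (c4 1 (by norm_num) (by rw [h]; norm_num))))
  · exact (c5 2 1 (by norm_num) (by rw [h]; norm_num)).elim
  · exact (c5 2 (-1) (by norm_num) (by rw [h]; norm_num)).elim
  · exact (c5 1 5 (by norm_num) (by rw [h]; norm_num)).elim
  · exact (c5 1 (-5) (by norm_num) (by rw [h]; norm_num)).elim
  · exact Or.inr (Or.inl (c1 4 (by norm_num) (by rw [h]; norm_num)))
  · exact Or.inl (c2 4 (by norm_num) (by rw [h]; norm_num))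
  · exact Or.inr (Or.inr (Or.inr (c3 2 (by norm_num) (by rw [h]; norm_num))))
  · exact Or.inr (Or.inr (Or.inl (c4 2 (by norm_num) (by rw [h]; norm_num))))
  · exact (c5 2 5 (by norm_num) (by rw [h]; norm_num)).elim
  · exact (c5 2 (-5) (by norm_num) (by rw [h]; norm_num)).elim
  · exact Or.inr (Or.inr (Or.inr (c3 4 (by norm_num) (by rw [h]; norm_num))))
  · exact Or.inr (Or.inr (Or.inl (c4 4 (by norm_num) (by rw [h]; norm_num))))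

end Fermat.Agent.S51
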