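import Mathlib

set_option autoImplicit false
set_option linter.unusedSectionVars false

namespace Fermat.Agent.S51

open WeierstrassCurve WeierstrassCurve.Affine

variable {K : Type*} [Field K] [DecidableEq K] (W : WeierstrassCurve.Affine K)

def S2 (x : K) : K := 4 * x ^ 3 + W.b₂ * x ^ 2 + 2 * W.b₄ * x + W.b₆

def P2 (x : K) : K := x ^ 4 - W.b₄ * x ^ 2 - 2 * W.b₆ * x - W.b₈

def P3 (x : K) : K := 3 * x ^ 4 + W.b₂ * x ^ 3 + 3 * W.b₄ * x ^ 2 + 3 * W.b₆ * x + W.b₈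

def HasX (P : W.Point) (x : K) : Prop := ∃ y h, P = WeierstrassCurve.Affine.Point.some x y h

variable {W}

theorem exists_hasX_of_ne_zero {P : W.Point} (hP : P ≠ 0) : ∃ x, HasX W P x := by
  rcases P with _ | ⟨x, y, h⟩
  · exact absurd rfl hP
  · exact ⟨x, y, h, rfl⟩

theorem HasX.ne_zero {P : W.Point} {x : K} (h : HasX W P x) : P ≠ 0 := by
  obtain ⟨y, hn, rfl⟩ := h
  exact Point.some_ne_zero hn

theorem HasX.unique {P : W.Point} {x x' : K} (h : HasX W P x) (h' : HasX W P x') : x = x' := by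
  obtain ⟨y, hn, rfl⟩ := h
  obtain ⟨y', hn', h2⟩ := h'
  rw [Point.some.injEq] at h2
  exact h2.1

theorem HasX.neg {P : W.Point} {x : K} (h : HasX W P x) : HasX W (-P) x := by
  obtain ⟨y, hn, rfl⟩ := h
  exact ⟨_, _, Point.neg_some hn⟩

theorem HasX.eq_or_eq_neg {P Q : W.Point} {x : K} (h : HasX W P x) (h' : HasX W Q x) :
    P = Q ∨ P = -Q := by
  obtain ⟨y, hn, rfl⟩ := h
  obtain ⟨y', hn', rfl⟩ := h'
  exact Point.X_eq_iff.mp rfl

theorem S2_eq_sq {x y : K} (h : W.Equation x y) : S2 W x = (y - W.negY x y) ^ 2 := by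
  rw [equation_iff] at h
  simp only [S2, negY, WeierstrassCurve.b₂, WeierstrassCurve.b₄, WeierstrassCurve.b₆]
  linear_combination (-4 : K) * h

theorem HasX.add_self_eq_zero_iff {P : W.Point} {x : K} (h : HasX W P x) :
    P + P = 0 ↔ S2 W x = 0 := by
  obtain ⟨y, hn, rfl⟩ := h
  rw [S2_eq_sq hn.1, sq_eq_zero_iff, sub_eq_zero]
  constructor
  · intro h0
    by_contra hy
    rw [Point.add_self_of_Y_ne hy] at h0
    exact Point.some_ne_zero _ h0
  · intro hy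
    exact Point.add_self_of_Y_eq hy

theorem HasX.dup {P : W.Point} {x x' : K} (h : HasX W P x) (h' : HasX W (P + P) x') :
    x' * S2 W x = P2 W x := by
  obtain ⟨y, hn, rfl⟩ := h
  have hy : y ≠ W.negY x y := by
    intro hy
    exact h'.ne_zero (Point.add_self_of_Y_eq hy)
  have h2 : HasX W (Point.some x y hn + Point.some x y hn) (W.addX x x (W.slope x x y y)) :=
    ⟨_, _, Point.add_self_of_Y_ne hy⟩
  rw [h'.unique h2, S2_eq_sq hn.1, slope_of_Y_ne rfl hy]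
  have hne : y - W.negY x y ≠ 0 := sub_ne_zero.mpr hy
  have heq := (equation_iff x y).mp hn.1
  set d := y - W.negY x y with hd
  set n := 3 * x ^ 2 + 2 * W.a₂ * x + W.a₄ - W.a₁ * y with hn'
  have h1 : W.addX x x (n / d) * d ^ 2 = n ^ 2 + W.a₁ * n * d - (W.a₂ + 2 * x) * d ^ 2 := by
    simp only [addX]
    field_simp
    ring
  rw [h1, hd, hn']
  simp only [P2, negY, WeierstrassCurve.b₄, WeierstrassCurve.b₆, WeierstrassCurve.b₈]
  linear_combination (-(W.a₁ ^ 2 + 4 * W.a₂) - 8 * x) * heq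

theorem P3_eq {x y : K} (h : W.Equation x y) :
    P3 W x = -(3 * x ^ 2 + 2 * W.a₂ * x + W.a₄ - W.a₁ * y) ^ 2
      - W.a₁ * (3 * x ^ 2 + 2 * W.a₂ * x + W.a₄ - W.a₁ * y) * (y - W.negY x y)
      + (W.a₂ + 3 * x) * (y - W.negY x y) ^ 2 := by
  rw [equation_iff] at h
  simp only [P3, negY, WeierstrassCurve.b₂, WeierstrassCurve.b₄, WeierstrassCurve.b₆,
    WeierstrassCurve.b₈]
  linear_combination (-(W.a₁ ^ 2 + 4 * W.a₂) - 12 * x) * h

theorem P2_sub (x : K) : P2 W x - x * S2 W x = -P3 W x := by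
  simp only [P2, S2, P3]; ring

theorem HasX.S2_ne_zero_of_P3 {P : W.Point} {x : K} (h : HasX W P x) (h3 : P3 W x = 0) :
    S2 W x ≠ 0 := by
  obtain ⟨y, hn, rfl⟩ := h
  intro h2
  rw [S2_eq_sq hn.1, sq_eq_zero_iff] at h2
  rw [P3_eq hn.1, h2] at h3
  have hn0 : 3 * x ^ 2 + 2 * W.a₂ * x + W.a₄ - W.a₁ * y = 0 := by
    have : (3 * x ^ 2 + 2 * W.a₂ * x + W.a₄ - W.a₁ * y) ^ 2 = 0 := by linear_combination -h3
    exact sq_eq_zero_iff.mp this
  rcases ((nonsingular_iff' x y).mp hn).2 with h4 | h4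
  · exact h4 (by linear_combination -hn0)
  · apply h4
    simp only [negY] at h2
    linear_combination h2

theorem three_nsmul' (P : W.Point) : (3 : ℕ) • P = P + P + P := by
  rw [succ_nsmul, two_nsmul]

theorem HasX.three {P : W.Point} {x : K} (h : HasX W P x) : (3 : ℕ) • P = 0 ↔ P3 W x = 0 := by
  rw [three_nsmul']
  constructor
  · intro h3
    have h2 : P + P = -P := eq_neg_of_add_eq_zero_left h3
    have hd := h.dup (h2 ▸ h.neg)
    have := P2_sub (W := W) x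
    rw [← hd, sub_self] at this
    exact neg_eq_zero.mp this.symm
  · intro h3
    have hS := h.S2_ne_zero_of_P3 h3
    have h2 : P + P ≠ 0 := fun h0 => hS (h.add_self_eq_zero_iff.mp h0)
    obtain ⟨x', hx'⟩ := exists_hasX_of_ne_zero h2
    have hd := h.dup hx'
    have h4 : x' = x := by
      have := P2_sub (W := W) x
      rw [h3, neg_zero, sub_eq_zero, ← hd] at this
      exact mul_right_cancel₀ hS this
    rw [h4] at hx'
    rcases hx'.eq_or_eq_neg h with h5 | h5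
    · exact absurd (add_eq_left.mp h5) h.ne_zero
    · rw [h5, neg_add_cancel]

theorem exists_hasX [IsAlgClosed K] (hΔ : W.Δ ≠ 0) (x : K) : ∃ P : W.Point, HasX W P x := by
  let p : Polynomial K := Polynomial.X ^ 2 + Polynomial.C (W.a₁ * x + W.a₃) * Polynomial.X
    - Polynomial.C (x ^ 3 + W.a₂ * x ^ 2 + W.a₄ * x + W.a₆)
  have hdeg : p.degree ≠ 0 := by
    have : p.degree = 2 := by
      simp only [p]
      compute_degree!
    rw [this]; decide
  obtain ⟨y, hy⟩ := IsAlgClosed.exists_root p hdeg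
  have heq : W.Equation x y := by
    rw [equation_iff]
    simp only [p, Polynomial.IsRoot.def, Polynomial.eval_sub, Polynomial.eval_add,
      Polynomial.eval_pow, Polynomial.eval_X, Polynomial.eval_mul, Polynomial.eval_C] at hy
    linear_combination hy
  exact ⟨Point.some x y ((equation_iff_nonsingular_of_Δ_ne_zero hΔ).mp heq), y, _, rfl⟩

theorem finite_ncard_le_of_roots (G : Polynomial K) (S : Set W.Point)
    (hS : ∀ P ∈ S, ∀ x, HasX W P x → x ∈ G.roots) :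
    S.Finite ∧ S.ncard ≤ 2 * G.natDegree + 1 := by
  classical
  let pt : K → W.Point := fun x => if h : ∃ P : W.Point, HasX W P x then h.choose else 0
  let R : Finset K := G.roots.toFinset
  let T : Finset W.Point := insert 0 (R.image pt ∪ R.image (fun x => -pt x))
  have hsub : S ⊆ (T : Set W.Point) := by
    intro P hP
    by_cases h0 : P = 0
    · simp [T, h0]
    · obtain ⟨x, hx⟩ := exists_hasX_of_ne_zero h0
      have hxR : x ∈ R := Multiset.mem_toFinset.mpr (hS P hP x hx)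
      have hex : ∃ P : W.Point, HasX W P x := ⟨P, hx⟩
      have hpt : HasX W (pt x) x := by
        simp only [pt, dif_pos hex]
        exact hex.choose_spec
      simp only [T, Finset.coe_insert, Finset.coe_union, Finset.coe_image, Set.mem_insert_iff,
        Set.mem_union, Set.mem_image, Finset.mem_coe]
      rcases hx.eq_or_eq_neg hpt with h | h
      · exact Or.inr (Or.inl ⟨x, hxR, h.symm⟩)
      · exact Or.inr (Or.inr ⟨x, hxR, h.symm⟩)
  have hR : R.card ≤ G.natDegree :=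
    (Multiset.toFinset_card_le _).trans (Polynomial.card_roots' G)
  have hT : T.card ≤ 2 * G.natDegree + 1 := by
    calc T.card ≤ (R.image pt ∪ R.image (fun x => -pt x)).card + 1 := Finset.card_insert_le _ _
      _ ≤ ((R.image pt).card + (R.image (fun x => -pt x)).card) + 1 := by
          gcongr; exact Finset.card_union_le _ _
      _ ≤ (R.card + R.card) + 1 := by
          gcongr <;> exact Finset.card_image_le
      _ ≤ 2 * G.natDegree + 1 := by omega
  refine ⟨T.finite_toSet.subset hsub, ?_⟩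
  calc S.ncard ≤ (T : Set W.Point).ncard := Set.ncard_le_ncard hsub T.finite_toSet
    _ = T.card := Set.ncard_coe_finset T
    _ ≤ _ := hT

noncomputable def P3poly (W : WeierstrassCurve.Affine K) : Polynomial K :=
  Polynomial.C 3 * Polynomial.X ^ 4 + Polynomial.C W.b₂ * Polynomial.X ^ 3
    + Polynomial.C (3 * W.b₄) * Polynomial.X ^ 2 + Polynomial.C (3 * W.b₆) * Polynomial.X
    + Polynomial.C W.b₈

theorem eval_P3poly (x : K) : (P3poly W).eval x = P3 W x := by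
  simp [P3poly, P3]

theorem natDegree_P3poly [CharZero K] : (P3poly W).natDegree = 4 := by
  have h3 : (3 : K) ≠ 0 := by norm_num
  simp only [P3poly]
  compute_degree!

theorem P3poly_ne_zero [CharZero K] : P3poly W ≠ 0 := by
  intro h
  have := natDegree_P3poly (W := W)
  rw [h] at this
  simp at this

theorem exists_three_torsion [IsAlgClosed K] [CharZero K] (hΔ : W.Δ ≠ 0) :
    ∃ P : W.Point, P ≠ 0 ∧ (3 : ℕ) • P = 0 := by
  have hdeg : (P3poly W).degree ≠ 0 := by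
    rw [Polynomial.degree_eq_natDegree P3poly_ne_zero, natDegree_P3poly]
    decide
  obtain ⟨x, hx⟩ := IsAlgClosed.exists_root _ hdeg
  obtain ⟨P, hP⟩ := exists_hasX hΔ x
  refine ⟨P, hP.ne_zero, hP.three.mpr ?_⟩
  rw [← eval_P3poly]; exact hx

theorem finite_three [CharZero K] :
    Set.Finite {P : W.Point | (3 : ℕ) • P = 0} ∧ {P : W.Point | (3 : ℕ) • P = 0}.ncard ≤ 9 := by
  have := finite_ncard_le_of_roots (W := W) (P3poly W) {P : W.Point | (3 : ℕ) • P = 0}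
    (by
      intro P hP x hx
      rw [Polynomial.mem_roots P3poly_ne_zero, Polynomial.IsRoot.def, eval_P3poly]
      exact hx.three.mp hP)
  rw [natDegree_P3poly] at this
  exact this

theorem five_nsmul' (P : W.Point) : (5 : ℕ) • P = (P + P) + (P + P) + P := by
  rw [show (5 : ℕ) = 2 + 2 + 1 from rfl, add_nsmul, add_nsmul, two_nsmul, one_nsmul]

structure FiveData (W : WeierstrassCurve.Affine K) (x1 x2 : K) : Prop where
  ne : x1 ≠ x2
  S2_ne1 : S2 W x1 ≠ 0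
  S2_ne2 : S2 W x2 ≠ 0
  dup1 : x2 * S2 W x1 = P2 W x1
  dup2 : x1 * S2 W x2 = P2 W x2

theorem HasX.five {P : W.Point} {x1 : K} (h : HasX W P x1) (h5 : (5 : ℕ) • P = 0) :
    ∃ x2, HasX W (P + P) x2 ∧ FiveData W x1 x2 := by
  rw [five_nsmul'] at h5
  have h4 : (P + P) + (P + P) = -P := eq_neg_of_add_eq_zero_left h5
  have h2 : P + P ≠ 0 := by
    intro h0
    rw [h0, add_zero, zero_add] at h5
    exact h.ne_zero h5
  obtain ⟨x2, hx2⟩ := exists_hasX_of_ne_zero h2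
  have hx4 : HasX W ((P + P) + (P + P)) x1 := h4 ▸ h.neg
  refine ⟨x2, hx2, ?_, fun h0 => h2 (h.add_self_eq_zero_iff.mpr h0),
    fun h0 => hx4.ne_zero (hx2.add_self_eq_zero_iff.mpr h0), h.dup hx2, hx2.dup hx4⟩
  rintro rfl
  rcases hx2.eq_or_eq_neg h with h6 | h6
  · exact h.ne_zero (add_eq_left.mp h6)
  · rw [h6] at h5
    apply h.ne_zero
    have : -P + -P + P = -P := by abel
    rw [this] at h5
    exact neg_eq_zero.mp h5

noncomputable def S2poly (W : WeierstrassCurve.Affine K) : Polynomial K :=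
  Polynomial.C 4 * Polynomial.X ^ 3 + Polynomial.C W.b₂ * Polynomial.X ^ 2
    + Polynomial.C (2 * W.b₄) * Polynomial.X + Polynomial.C W.b₆

noncomputable def P2poly (W : WeierstrassCurve.Affine K) : Polynomial K :=
  Polynomial.X ^ 4 - Polynomial.C W.b₄ * Polynomial.X ^ 2
    - Polynomial.C (2 * W.b₆) * Polynomial.X - Polynomial.C W.b₈

noncomputable def Gpoly (W : WeierstrassCurve.Affine K) : Polynomial K :=
  (P2poly W ^ 4 - Polynomial.C W.b₄ * P2poly W ^ 2 * S2poly W ^ 2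
    - Polynomial.C (2 * W.b₆) * P2poly W * S2poly W ^ 3 - Polynomial.C W.b₈ * S2poly W ^ 4)
  - Polynomial.X * S2poly W * (Polynomial.C 4 * P2poly W ^ 3
    + Polynomial.C W.b₂ * P2poly W ^ 2 * S2poly W
    + Polynomial.C (2 * W.b₄) * P2poly W * S2poly W ^ 2 + Polynomial.C W.b₆ * S2poly W ^ 3)

theorem eval_S2poly (x : K) : (S2poly W).eval x = S2 W x := by
  simp [S2poly, S2]

theorem eval_P2poly (x : K) : (P2poly W).eval x = P2 W x := by
  simp [P2poly, P2]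

theorem natDegree_Gpoly_le : (Gpoly W).natDegree ≤ 16 := by
  simp only [Gpoly, P2poly, S2poly]
  compute_degree

theorem coeff_Gpoly : (Gpoly W).coeff 16 = -15 := by
  simp only [Gpoly, P2poly, S2poly]
  compute_degree
  all_goals norm_num

theorem Gpoly_ne_zero [CharZero K] : Gpoly W ≠ 0 := by
  intro h
  have := coeff_Gpoly (W := W)
  rw [h, Polynomial.coeff_zero] at this
  norm_num at this

theorem eval_Gpoly (x : K) : (Gpoly W).eval x =
    (P2 W x ^ 4 - W.b₄ * P2 W x ^ 2 * S2 W x ^ 2 - 2 * W.b₆ * P2 W x * S2 W x ^ 3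
      - W.b₈ * S2 W x ^ 4)
    - x * S2 W x * (4 * P2 W x ^ 3 + W.b₂ * P2 W x ^ 2 * S2 W x
      + 2 * W.b₄ * P2 W x * S2 W x ^ 2 + W.b₆ * S2 W x ^ 3) := by
  simp only [Gpoly, Polynomial.eval_sub, Polynomial.eval_mul, Polynomial.eval_pow,
    Polynomial.eval_add, Polynomial.eval_C, Polynomial.eval_X, eval_S2poly, eval_P2poly]

theorem eval_Gpoly_of_dup {x1 x2 : K} (h : x2 * S2 W x1 = P2 W x1) :
    (Gpoly W).eval x1 = S2 W x1 ^ 4 * (P2 W x2 - x1 * S2 W x2) := by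
  rw [eval_Gpoly, ← h]
  generalize S2 W x1 = s
  simp only [S2, P2]
  ring

theorem FiveData.eval_Gpoly {x1 x2 : K} (h : FiveData W x1 x2) : (Gpoly W).eval x1 = 0 := by
  rw [eval_Gpoly_of_dup h.dup1, h.dup2, sub_self, mul_zero]

theorem finite_five [CharZero K] :
    Set.Finite {P : W.Point | (5 : ℕ) • P = 0} ∧ {P : W.Point | (5 : ℕ) • P = 0}.ncard ≤ 33 := by
  have := finite_ncard_le_of_roots (W := W) (Gpoly W) {P : W.Point | (5 : ℕ) • P = 0}
    (by
      intro P hP x hx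
      rw [Polynomial.mem_roots Gpoly_ne_zero, Polynomial.IsRoot.def]
      obtain ⟨x2, -, hd⟩ := hx.five hP
      exact hd.eval_Gpoly)
  refine ⟨this.1, this.2.trans ?_⟩
  have := natDegree_Gpoly_le (W := W)
  omega

def Q4 (W : WeierstrassCurve.Affine K) (x : K) : K :=
  2 * x ^ 6 + W.b₂ * x ^ 5 + 5 * W.b₄ * x ^ 4 + 10 * W.b₆ * x ^ 3 + 10 * W.b₈ * x ^ 2
    + (W.b₂ * W.b₈ - W.b₄ * W.b₆) * x + (W.b₄ * W.b₈ - W.b₆ ^ 2)

def P5 (W : WeierstrassCurve.Affine K) (x : K) : K := Q4 W x * S2 W x ^ 2 - P3 W x ^ 3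

theorem Sh_eq (x : K) : 4 * P2 W x ^ 3 + W.b₂ * P2 W x ^ 2 * S2 W x
      + 2 * W.b₄ * P2 W x * S2 W x ^ 2 + W.b₆ * S2 W x ^ 3 = Q4 W x ^ 2 := by
  simp only [P2, S2, Q4]
  linear_combination (-13 * x ^ 8 - 8 * x ^ 7 * W.b₂ - x ^ 6 * W.b₂ ^ 2 - 28 * x ^ 6 * W.b₄ - 6 * x ^ 5 * W.b₂ * W.b₄ - 38 * x ^ 5 * W.b₆ - 7 * x ^ 4 * W.b₂ * W.b₆ - 8 * x ^ 4 * W.b₄ ^ 2 - 22 * x ^ 4 * W.b₈ - 4 * x ^ 3 * W.b₂ * W.b₈ - 16 * x ^ 3 * W.b₄ * W.b₆ - 8 * x ^ 2 * W.b₄ * W.b₈ - 7 * x ^ 2 * W.b₆ ^ 2 - 6 * x * W.b₆ * W.b₈ - W.b₈ ^ 2) * W.b_relation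

theorem eval_Gpoly_eq (x : K) : (Gpoly W).eval x = -(P5 W x * P3 W x) := by
  rw [eval_Gpoly]
  simp only [P5, P2, S2, Q4, P3]
  linear_combination (48 * x ^ 12 + 40 * x ^ 11 * W.b₂ + 11 * x ^ 10 * W.b₂ ^ 2 + 96 * x ^ 10 * W.b₄ + x ^ 9 * W.b₂ ^ 3 + 52 * x ^ 9 * W.b₂ * W.b₄ + 72 * x ^ 9 * W.b₆ + 7 * x ^ 8 * W.b₂ ^ 2 * W.b₄ + 38 * x ^ 8 * W.b₂ * W.b₆ + 60 * x ^ 8 * W.b₄ ^ 2 + 16 * x ^ 8 * W.b₈ + 5 * x ^ 7 * W.b₂ ^ 2 * W.b₆ + 16 * x ^ 7 * W.b₂ * W.b₄ ^ 2 + 8 * x ^ 7 * W.b₂ * W.b₈ + 84 * x ^ 7 * W.b₄ * W.b₆ + x ^ 6 * W.b₂ ^ 2 * W.b₈ + 22 * x ^ 6 * W.b₂ * W.b₄ * W.b₆ + 12 * x ^ 6 * W.b₄ ^ 3 + 16 * x ^ 6 * W.b₄ * W.b₈ + 27 * x ^ 6 * W.b₆ ^ 2 + 4 * x ^ 5 * W.b₂ * W.b₄ * W.b₈ + 7 * x ^ 5 * W.b₂ * W.b₆ ^ 2 + 24 * x ^ 5 * W.b₄ ^ 2 * W.b₆ + 8 * x ^ 5 * W.b₆ * W.b₈ + 2 * x ^ 4 * W.b₂ * W.b₆ * W.b₈ + 4 * x ^ 4 * W.b₄ ^ 2 * W.b₈ + 15 * x ^ 4 * W.b₄ * W.b₆ ^ 2 + 4 * x ^ 3 * W.b₄ * W.b₆ * W.b₈ + 3 * x ^ 3 * W.b₆ ^ 3 + x ^ 2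 * W.b₆ ^ 2 * W.b₈) * W.b_relation

noncomputable def Q4poly (W : WeierstrassCurve.Affine K) : Polynomial K :=
  Polynomial.C 2 * Polynomial.X ^ 6 + Polynomial.C W.b₂ * Polynomial.X ^ 5
    + Polynomial.C (5 * W.b₄) * Polynomial.X ^ 4 + Polynomial.C (10 * W.b₆) * Polynomial.X ^ 3
    + Polynomial.C (10 * W.b₈) * Polynomial.X ^ 2
    + Polynomial.C (W.b₂ * W.b₈ - W.b₄ * W.b₆) * Polynomial.X
    + Polynomial.C (W.b₄ * W.b₈ - W.b₆ ^ 2)

noncomputable def P5poly (W : WeierstrassCurve.Affine K) : Polynomial K :=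
  Q4poly W * S2poly W ^ 2 - P3poly W ^ 3

theorem eval_Q4poly (x : K) : (Q4poly W).eval x = Q4 W x := by
  simp [Q4poly, Q4]

theorem eval_P5poly (x : K) : (P5poly W).eval x = P5 W x := by
  simp only [P5poly, P5, Polynomial.eval_sub, Polynomial.eval_mul, Polynomial.eval_pow,
    eval_Q4poly, eval_S2poly, eval_P3poly]

theorem coeff_P5poly : (P5poly W).coeff 12 = 5 := by
  simp only [P5poly, Q4poly, S2poly, P3poly]
  compute_degree
  all_goals norm_num

theorem degree_P5poly_ne_zero [CharZero K] : (P5poly W).degree ≠ 0 := by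
  intro h
  have h1 : (P5poly W).natDegree = 0 := Polynomial.natDegree_eq_of_degree_eq_some h
  have h2 : (P5poly W).coeff 12 = 0 :=
    Polynomial.coeff_eq_zero_of_natDegree_lt (by rw [h1]; norm_num)
  rw [coeff_P5poly] at h2
  norm_num at h2

theorem exists_five_torsion [IsAlgClosed K] [CharZero K] (hΔ : W.Δ ≠ 0) :
    ∃ P : W.Point, P ≠ 0 ∧ (5 : ℕ) • P = 0 := by
  obtain ⟨x, hx⟩ := IsAlgClosed.exists_root _ (degree_P5poly_ne_zero (W := W))
  rw [Polynomial.IsRoot.def, eval_P5poly] at hx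
  obtain ⟨P, hP⟩ := exists_hasX hΔ x
  refine ⟨P, hP.ne_zero, ?_⟩
  have hS : S2 W x ≠ 0 := by
    intro h0
    have h3 : P3 W x = 0 := by
      have : P3 W x ^ 3 = 0 := by
        have := hx
        rw [P5, h0] at this
        linear_combination -this
      exact pow_eq_zero_iff (by norm_num) |>.mp this
    exact hP.S2_ne_zero_of_P3 h3 h0
  have h2 : P + P ≠ 0 := fun h0 => hS (hP.add_self_eq_zero_iff.mp h0)
  obtain ⟨x2, hx2⟩ := exists_hasX_of_ne_zero h2
  have hd := hP.dup hx2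
  have hSh : S2 W x2 * S2 W x ^ 3 = Q4 W x ^ 2 := by
    rw [← Sh_eq, ← hd]
    generalize S2 W x = s
    simp only [S2]
    ring
  have hQ : Q4 W x ≠ 0 := by
    intro h0
    have h3 : P3 W x = 0 := by
      have : P3 W x ^ 3 = 0 := by
        have := hx
        rw [P5, h0] at this
        linear_combination -this
      exact pow_eq_zero_iff (by norm_num) |>.mp this
    have h3P := hP.three.mpr h3
    have hS2 : S2 W x2 = 0 := by
      rw [h0] at hSh
      have : S2 W x2 * S2 W x ^ 3 = 0 := by rw [hSh]; ring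
      exact (mul_eq_zero.mp this).resolve_right (pow_ne_zero _ hS)
    have h4P := hx2.add_self_eq_zero_iff.mpr hS2
    rw [three_nsmul'] at h3P
    apply hP.ne_zero
    have : P = (P + P) + (P + P) - (P + P + P) := by abel
    rw [this, h4P, h3P, sub_zero]
  have hS2 : S2 W x2 ≠ 0 := by
    intro h0
    rw [h0, zero_mul] at hSh
    exact hQ (pow_eq_zero_iff (by norm_num) |>.mp hSh.symm)
  have h4 : (P + P) + (P + P) ≠ 0 := fun h0 => hS2 (hx2.add_self_eq_zero_iff.mp h0)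
  obtain ⟨x4, hx4⟩ := exists_hasX_of_ne_zero h4
  have hd2 := hx2.dup hx4
  have hG : S2 W x ^ 4 * (P2 W x2 - x * S2 W x2) = 0 := by
    rw [← eval_Gpoly_of_dup hd, eval_Gpoly_eq, hx, zero_mul, neg_zero]
  have h5 : P2 W x2 = x * S2 W x2 :=
    sub_eq_zero.mp ((mul_eq_zero.mp hG).resolve_left (pow_ne_zero _ hS))
  have hx4x : x4 = x := by
    rw [h5] at hd2
    exact mul_right_cancel₀ hS2 hd2
  rw [hx4x] at hx4
  rw [five_nsmul']
  rcases hx4.eq_or_eq_neg hP with h6 | h6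
  · exfalso
    have h3P : (3 : ℕ) • P = 0 := by
      rw [three_nsmul']
      have : P + P + P = (P + P) + (P + P) - P := by abel
      rw [this, h6, sub_self]
    have h3 := hP.three.mp h3P
    rw [P5, h3] at hx
    have : Q4 W x * S2 W x ^ 2 = 0 := by linear_combination hx
    rcases mul_eq_zero.mp this with h7 | h7
    · exact hQ h7
    · exact hS (pow_eq_zero_iff (by norm_num) |>.mp h7)
  · rw [h6, neg_add_cancel]

end Fermat.Agent.S51
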